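/-
S59 RT-NONMIN, leaf CQNE (owner-planner helper7): `|a_q(f)| < q + 1` for every `T_q`-eigenvector
`f ≠ 0` in `S₂(Γ₀(N))`, `q ∤ N` — elementary (maximum principle for `|f(z)| Im z`).

Target: `NonMin.Stmt_CQNE` (S59/NonMin/Defs.lean).  Route:
* `Stmt_EigOfChar` : a character `x` of the Hecke algebra with `x t = c ∈ ℤ` gives an eigenvector
                     `f ≠ 0`, `t f = c f`.
* `Stmt_MaxPt`     : `z ↦ ‖f z‖ · Im z` attains its maximum on the upper half plane.
* `Stmt_HeckeIneq` : `T_q f = a f ⟹ ‖a‖ φ(z) ≤ ∑_j φ((z + j)/q) + φ(q z)`, `φ(z) = ‖f z‖ Im z`.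
* `Stmt_Decay`     : `φ(z) → 0` as `Im z → ∞`.
Assembly (helper7, `CQNE/H7_Asm.lean`): at a maximum point `z₀` the inequality forces
`φ(q z₀) = φ(z₀)`, hence `φ(q^m z₀) = max φ > 0` for all `m`, contradicting the decay.

Leaves: prove `theorem stmt_X : Stmt_X` in `S59/NonMin/CQNE/H<seat>_<Name>.lean`,
namespace `Fermat.Agent.S59.NonMin.CQNE.H<seat>`.
-/
import Mathlib
import Fermat.Prelude.Def_CuspForm_HeckeAlgebra

set_option autoImplicit false

open UpperHalfPlane ModularForm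

namespace Fermat.Agent.S59.NonMin.CQNE

/-- **EIG-OF-CHAR**: if a ring homomorphism `x` from the Hecke algebra to a field of
characteristic `0` sends `t` to the integer `c`, then `c` is an eigenvalue of `t` on the space of
cusp forms.
[`t - c` is integral over `ℤ` (`Fermat.Agent.S22.result`: the Hecke algebra is a finitely
generated `ℤ`-module); take a monic `P ∈ ℤ[X]` of minimal degree with `P (t - c) = 0`.  If `t - c`
were injective on the (finite-dimensional) space of cusp forms, then `P(0) ≠ 0` (otherwise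
`P = X Q`, `Q (t - c) ∘ (t - c) = 0`, `t - c` is bijective, so `Q (t - c) = 0`); but
`0 = x (P (t - c)) = P (x t - c) = P(0)` in `K`, and `K` has characteristic `0`.] -/
def Stmt_EigOfChar : Prop :=
  ∀ (N : ℕ) [NeZero N] (S : Set ℕ) (K : Type) [Field K] [CharZero K]
    (x : CuspForm.heckeAlgebra N 2 S →+* K) (t : CuspForm.heckeAlgebra N 2 S) (c : ℤ),
    x t = (c : K) →
    ∃ f : CuspForm (CongruenceSubgroup.Gamma0 N) 2, f ≠ 0 ∧
      (t : Module.End ℂ (CuspForm (CongruenceSubgroup.Gamma0 N) 2)) f = (c : ℂ) • f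

/-- **MAXPT**: for a cusp form `f` of weight `2` the function `z ↦ ‖f z‖ · Im z` attains its
maximum.
[As in `Mathlib/NumberTheory/ModularForms/Bounds.lean`: `φ_γ(z) := ‖f (γ⁻¹ • z)‖ · Im (γ⁻¹ • z)`
depends only on the class of `γ` in `SL(2, ℤ) ⧸ Γ₀(N)` (finite); `Φ := max_γ φ_γ` is continuous,
`SL(2, ℤ)`-invariant and tends to `0` at `i∞` (`CuspFormClass.petersson_bounded_left`, its proof:
`CuspForm.translate`, `petersson_isZeroAtImInfty_left`); on the compact set
`ModularGroup.truncatedFundamentalDomain y` it attains its maximum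
(`isCompact_truncatedFundamentalDomain`, `IsCompact.exists_isMaxOn`), which is the maximum on `𝒟`,
hence on `ℍ` (`ModularGroup.exists_smul_mem_fd`).] -/
def Stmt_MaxPt : Prop :=
  ∀ (N : ℕ) [NeZero N] (f : CuspForm (CongruenceSubgroup.Gamma0 N) 2),
    ∃ z₀ : ℍ, ∀ z : ℍ, ‖f z‖ * z.im ≤ ‖f z₀‖ * z₀.im

/-- **HECKE-INEQ**: the Hecke relation in absolute values.
[`T_q f (z) = q⁻¹ ∑_j f ((z + j) / q) + q f (q z)` (prelude `heckeT_def`,
`slash_heckeMatrix_apply`, `slash_heckeDiagMatrix_apply`, `coe_heckeMatrix_smul`,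
`coe_heckeDiagMatrix_smul`), `Im ((z + j) / q) = Im z / q`, `Im (q z) = q Im z`.] -/
def Stmt_HeckeIneq : Prop :=
  ∀ (N : ℕ) [NeZero N] (q : ℕ) (hq : q.Prime) (hqN : ¬ q ∣ N)
    (f : CuspForm (CongruenceSubgroup.Gamma0 N) 2) (a : ℂ),
    CuspForm.heckeTLin 2 hq hqN f = a • f →
    ∀ z : ℍ, ‖a‖ * (‖f z‖ * z.im) ≤
      (∑ j ∈ Finset.range q, ‖f (heckeMatrix q j • z)‖ * (heckeMatrix q j • z).im) +
        ‖f (heckeDiagMatrix q • z)‖ * (heckeDiagMatrix q • z).im

/-- **DECAY**: `‖f z‖ · Im z → 0` as `Im z → ∞`.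
[`CuspFormClass.zero_at_infty` + exponential decay (`CuspFormClass.exp_decay_atImInfty`), or
`UpperHalfPlane.petersson_isZeroAtImInfty_left` for `petersson 2 f f = conj f * f * im ^ 2`.] -/
def Stmt_Decay : Prop :=
  ∀ (N : ℕ) [NeZero N] (f : CuspForm (CongruenceSubgroup.Gamma0 N) 2) (ε : ℝ), 0 < ε →
    ∃ Y : ℝ, ∀ z : ℍ, Y ≤ z.im → ‖f z‖ * z.im < ε

end Fermat.Agent.S59.NonMin.CQNE
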