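/-
S59 RT-NONMIN, CQNE (helper7): assembly.

* `Stmt_NormLt`        : `‖c‖ < q + 1` for every `T_q`-eigenvalue `c` on `S₂(Γ₀(N))`, `q ∤ N`
                         (the analytic core; helper56 proves it directly as
                         `NonMin.H56.norm_lt_of_heckeTLin_eq_smul`).
* `stmt_NormLt_of`     : the analytic core from `Stmt_MaxPt`, `Stmt_HeckeIneq`, `Stmt_Decay`
                         (iteration `z ↦ q z` at a maximum point of `‖f z‖ · Im z`).
* `stmt_CQNE_of_normLt`: `Stmt_EigOfChar → Stmt_NormLt → NonMin.Stmt_CQNE`.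
-/
import Fermat.Agent.S59.NonMin.CQNE.Defs
import Fermat.Agent.S59.NonMin.Defs

set_option autoImplicit false

open UpperHalfPlane ModularForm

namespace Fermat.Agent.S59.NonMin.CQNE

/-- **The analytic core**: a `T_q`-eigenvalue on weight `2` cusp forms has absolute value
`< q + 1`. -/
def Stmt_NormLt : Prop :=
  ∀ (N : ℕ) [NeZero N] (q : ℕ) (hq : q.Prime) (hqN : ¬ q ∣ N)
    (f : CuspForm (CongruenceSubgroup.Gamma0 N) 2), f ≠ 0 → ∀ c : ℂ,
    CuspForm.heckeTLin 2 hq hqN f = c • f → ‖c‖ < (q : ℝ) + 1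

namespace H7

/-- The imaginary part of `q z`. -/
theorem im_heckeDiagMatrix_smul {q : ℕ} (hq : q ≠ 0) (z : ℍ) :
    (heckeDiagMatrix q • z).im = q * z.im := by
  have h := congrArg Complex.im (coe_heckeDiagMatrix_smul hq z)
  rw [UpperHalfPlane.coe_im] at h
  rw [h]
  simp

/-- The analytic core from the maximum point, the Hecke inequality and the decay. -/
theorem stmt_NormLt_of (hM : Stmt_MaxPt) (hI : Stmt_HeckeIneq) (hD : Stmt_Decay) :
    Stmt_NormLt := by
  intro N _ q hq hqN f hf0 c hfc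
  by_contra hlt
  rw [not_lt] at hlt
  obtain ⟨z₀, hz₀⟩ := hM N f
  -- the maximum is positive
  have hpos : 0 < ‖f z₀‖ * z₀.im := by
    obtain ⟨z, hz⟩ : ∃ z : ℍ, f z ≠ 0 := by
      by_contra hall
      push Not at hall
      exact hf0 (DFunLike.ext _ _ fun z => by simpa using hall z)
    exact lt_of_lt_of_le (mul_pos (norm_pos_iff.mpr hz) z.im_pos) (hz₀ z)
  -- the maximum propagates along `z ↦ q z`
  have key : ∀ w : ℍ, ‖f w‖ * w.im = ‖f z₀‖ * z₀.im →
      ‖f (heckeDiagMatrix q • w)‖ * (heckeDiagMatrix q • w).im = ‖f z₀‖ * z₀.im := by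
    intro w hw
    have h1 := hI N q hq hqN f c hfc w
    have h2 : (∑ j ∈ Finset.range q, ‖f (heckeMatrix q j • w)‖ * (heckeMatrix q j • w).im) ≤
        q * (‖f z₀‖ * z₀.im) := by
      calc (∑ j ∈ Finset.range q, ‖f (heckeMatrix q j • w)‖ * (heckeMatrix q j • w).im)
          ≤ ∑ _j ∈ Finset.range q, ‖f z₀‖ * z₀.im := Finset.sum_le_sum fun j _ => hz₀ _
        _ = q * (‖f z₀‖ * z₀.im) := by rw [Finset.sum_const, Finset.card_range, nsmul_eq_mul]
    have h3 := hz₀ (heckeDiagMatrix q • w)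
    rw [hw] at h1
    have h4 : ((q : ℝ) + 1) * (‖f z₀‖ * z₀.im) ≤ ‖c‖ * (‖f z₀‖ * z₀.im) :=
      mul_le_mul_of_nonneg_right hlt hpos.le
    exact le_antisymm h3 (by linarith)
  have hall : ∀ m : ℕ, ∃ w : ℍ, ‖f w‖ * w.im = ‖f z₀‖ * z₀.im ∧ w.im = (q : ℝ) ^ m * z₀.im := by
    intro m
    induction m with
    | zero => exact ⟨z₀, rfl, by simp⟩
    | succ m ih =>
      obtain ⟨w, hw1, hw2⟩ := ih
      refine ⟨heckeDiagMatrix q • w, key w hw1, ?_⟩
      rw [im_heckeDiagMatrix_smul hq.ne_zero, hw2, pow_succ]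
      ring
  obtain ⟨Y, hY⟩ := hD N f (‖f z₀‖ * z₀.im) hpos
  obtain ⟨m, hm⟩ : ∃ m : ℕ, Y / z₀.im < (q : ℝ) ^ m :=
    pow_unbounded_of_one_lt _ (by exact_mod_cast hq.one_lt)
  obtain ⟨w, hw1, hw2⟩ := hall m
  have h5 : Y ≤ w.im := by
    rw [hw2]
    exact ((div_lt_iff₀ z₀.im_pos).1 hm).le
  have := hY w h5
  rw [hw1] at this
  exact lt_irrefl _ this

/-- **CQNE** from the algebraic reduction and the analytic core. -/
theorem stmt_CQNE_of_normLt (hE : Stmt_EigOfChar) (hA : Stmt_NormLt) :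
    Fermat.Agent.S59.NonMin.Stmt_CQNE := by
  intro N _ S q hq hqN hqS K _ _ x hx
  have h1 : (x (CuspForm.heckeAlgebra.T hq hqN hqS) - ((q : K) + 1)) *
      (x (CuspForm.heckeAlgebra.T hq hqN hqS) + ((q : K) + 1)) = 0 := by
    linear_combination hx
  have hcontra : ∀ c : ℤ, x (CuspForm.heckeAlgebra.T hq hqN hqS) = (c : K) →
      ‖(c : ℂ)‖ = (q : ℝ) + 1 → False := by
    intro c hc hnorm
    obtain ⟨f, hf0, hf⟩ := hE N S K x (CuspForm.heckeAlgebra.T hq hqN hqS) c hc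
    have h2 := hA N q hq hqN f hf0 (c : ℂ) hf
    rw [hnorm] at h2
    exact lt_irrefl _ h2
  have hq0 : (0 : ℝ) ≤ (q : ℝ) + 1 := by positivity
  rcases mul_eq_zero.1 h1 with h | h
  · refine hcontra ((q : ℤ) + 1) ?_ ?_
    · push_cast
      linear_combination h
    · push_cast
      rw [show ((q : ℂ) + 1) = (((q : ℝ) + 1 : ℝ) : ℂ) by push_cast; rfl,
        Complex.norm_of_nonneg hq0]
  · refine hcontra (-((q : ℤ) + 1)) ?_ ?_
    · push_cast
      linear_combination h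
    · push_cast
      rw [norm_neg, show ((q : ℂ) + 1) = (((q : ℝ) + 1 : ℝ) : ℂ) by push_cast; rfl,
        Complex.norm_of_nonneg hq0]

end H7

end Fermat.Agent.S59.NonMin.CQNE
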