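/-
S59 RT-NONMIN, CQNE (helper7): `stmt_EigOfChar : Stmt_EigOfChar` — a character of the Hecke
algebra with an integer value `c` at `t` gives a nonzero eigenvector of `t` with eigenvalue `c`.
-/
import Fermat.Agent.S59.NonMin.CQNE.Defs
import Fermat.Agent.S22

set_option autoImplicit false

open Polynomial

namespace Fermat.Agent.S59.NonMin.CQNE.H7

/-- **EIG-OF-CHAR**. -/
theorem stmt_EigOfChar : Stmt_EigOfChar := by
  intro N _ S K _ _ x t c hx
  by_contra hne
  push Not at hne
  have : Module.Finite ℤ (CuspForm.heckeAlgebra N 2 S) := Fermat.Agent.S22.result N 2 S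
  set s : CuspForm.heckeAlgebra N 2 S := t - (c : CuspForm.heckeAlgebra N 2 S) with hs
  have hxs : x s = 0 := by rw [hs, map_sub, hx, map_intCast, sub_self]
  -- `s` is injective on cusp forms
  have hinj : ∀ f : CuspForm (CongruenceSubgroup.Gamma0 N) 2,
      (s : Module.End ℂ (CuspForm (CongruenceSubgroup.Gamma0 N) 2)) f = 0 → f = 0 := by
    intro f hf
    by_contra hf0
    apply hne f hf0
    have h1 : (s : Module.End ℂ (CuspForm (CongruenceSubgroup.Gamma0 N) 2)) f =
        (t : Module.End ℂ (CuspForm (CongruenceSubgroup.Gamma0 N) 2)) f - (c : ℂ) • f := by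
      have hc : ((c : CuspForm.heckeAlgebra N 2 S) :
          Module.End ℂ (CuspForm (CongruenceSubgroup.Gamma0 N) 2)) =
            (c : Module.End ℂ (CuspForm (CongruenceSubgroup.Gamma0 N) 2)) := rfl
      rw [hs, Subalgebra.coe_sub, hc, LinearMap.sub_apply,
        Module.End.intCast_apply, Int.cast_smul_eq_zsmul]
    rw [h1, sub_eq_zero] at hf
    exact hf
  -- the minimal polynomial
  have hint : IsIntegral ℤ s := Algebra.IsIntegral.isIntegral s
  set P : ℤ[X] := minpoly ℤ s with hP
  have hmonic : P.Monic := minpoly.monic hint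
  have haeval : aeval s P = 0 := minpoly.aeval ℤ s
  -- `P(0) = 0`
  have hcoeff : P.coeff 0 = 0 := by
    have h1 : x (aeval s P) = 0 := by rw [haeval, map_zero]
    rw [aeval_def, hom_eval₂, hxs, eval₂_at_zero] at h1
    have h2 : (x.comp (algebraMap ℤ (CuspForm.heckeAlgebra N 2 S))) (P.coeff 0) =
        ((P.coeff 0 : ℤ) : K) := eq_intCast _ _
    rw [h2] at h1
    exact_mod_cast h1
  obtain ⟨Q, hQ⟩ := X_dvd_iff.2 hcoeff
  have hQmonic : Q.Monic := by
    have h1 : (X * Q).Monic := hQ ▸ hmonic
    exact Monic.of_mul_monic_left monic_X h1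
  -- `Q(s) = 0`
  have hQs : aeval s Q = 0 := by
    have h1 : s * aeval s Q = 0 := by
      have h2 := haeval
      rw [hQ, map_mul, aeval_X] at h2
      exact h2
    apply Subtype.ext
    apply LinearMap.ext
    intro f
    apply hinj
    have h3 := congrArg (fun u : CuspForm.heckeAlgebra N 2 S =>
      (u : Module.End ℂ (CuspForm (CongruenceSubgroup.Gamma0 N) 2)) f) h1
    simpa using h3
  -- contradiction with minimality
  have hdeg := minpoly.min ℤ s hQmonic hQs
  rw [← hP, hQ, degree_mul, degree_X] at hdeg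
  have hQ0 : Q ≠ 0 := hQmonic.ne_zero
  rw [degree_eq_natDegree hQ0] at hdeg
  have : ((1 + Q.natDegree : ℕ) : WithBot ℕ) ≤ (Q.natDegree : WithBot ℕ) := by
    simpa using hdeg
  have h4 : 1 + Q.natDegree ≤ Q.natDegree := by exact_mod_cast this
  omega

end Fermat.Agent.S59.NonMin.CQNE.H7
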